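import Fermat.Agent.Kingman.Main
import Mathlib.Analysis.SpecialFunctions.Log.PosLog
import Mathlib.MeasureTheory.Constructions.BorelSpace.Basic

/-!
# The growth of products of random matrices
-/

set_option autoImplicit false

noncomputable section

namespace FA.Kingman

open MeasureTheory Filter Topology Finset Real

variable {α : Type*} {R : Type*}

/-- `A (T^[n - 1] x) * ... * A x`. -/
def cocycleProd [Monoid R] (T : α → α) (A : α → R) : ℕ → α → R
  | 0 => fun _ => 1
  | n + 1 => fun x => cocycleProd T A n (T x) * A x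

theorem cocycleProd_add [Monoid R] (T : α → α) (A : α → R) (m n : ℕ) (x : α) :
    cocycleProd T A (m + n) x = cocycleProd T A n (T^[m] x) * cocycleProd T A m x := by
  induction m generalizing x with
  | zero => simp [cocycleProd]
  | succ m ih =>
    rw [Nat.succ_add]
    show cocycleProd T A (m + n) (T x) * A x = _ * (cocycleProd T A m (T x) * A x)
    rw [ih (T x), mul_assoc, Function.iterate_succ_apply]

variable [NormedRing R] [NormOneClass R]

theorem norm_cocycleProd_le (T : α → α) (A : α → Rˣ) (n : ℕ) (x : α) :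
    log ‖((cocycleProd T A n x : Rˣ) : R)‖ ≤ birkhoffSum T (fun y => log⁺ ‖(A y : R)‖) n x := by
  induction n generalizing x with
  | zero => simp [cocycleProd]
  | succ n ih =>
    rw [cocycleProd, birkhoffSum_succ', add_comm, Units.val_mul]
    have hR : Nontrivial R := NormOneClass.nontrivial (G := R)
    refine (Real.log_le_log (norm_pos_iff.2
      ((cocycleProd T A n (T x) * A x).isUnit.ne_zero)) (norm_mul_le _ _)).trans ?_
    rw [Real.log_mul (norm_ne_zero_iff.2 (Units.ne_zero _)) (norm_ne_zero_iff.2 (Units.ne_zero _))]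
    exact add_le_add (ih (T x)) (le_max_right _ _)

theorem norm_cocycleProd_inv_le (T : α → α) (A : α → Rˣ) (n : ℕ) (x : α) :
    log ‖(((cocycleProd T A n x)⁻¹ : Rˣ) : R)‖ ≤
      birkhoffSum T (fun y => log⁺ ‖(((A y)⁻¹ : Rˣ) : R)‖) n x := by
  induction n generalizing x with
  | zero => simp [cocycleProd]
  | succ n ih =>
    rw [cocycleProd, birkhoffSum_succ', mul_inv_rev, Units.val_mul]
    have hR : Nontrivial R := NormOneClass.nontrivial (G := R)
    refine (Real.log_le_log (norm_pos_iff.2
      (((A x)⁻¹ * (cocycleProd T A n (T x))⁻¹).isUnit.ne_zero)) (norm_mul_le _ _)).trans ?_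
    rw [Real.log_mul (norm_ne_zero_iff.2 (Units.ne_zero _)) (norm_ne_zero_iff.2 (Units.ne_zero _))]
    exact add_le_add (le_max_right _ _) (ih (T x))

theorem neg_birkhoffSum_le (T : α → α) (A : α → Rˣ) (n : ℕ) (x : α) :
    -birkhoffSum T (fun y => log⁺ ‖(((A y)⁻¹ : Rˣ) : R)‖) n x ≤
      log ‖((cocycleProd T A n x : Rˣ) : R)‖ := by
  have hR : Nontrivial R := NormOneClass.nontrivial (G := R)
  set u := cocycleProd T A n x
  have h1 : 1 ≤ ‖(u : R)‖ * ‖((u⁻¹ : Rˣ) : R)‖ := by
    rw [← norm_one (α := R), ← u.mul_inv]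
    exact norm_mul_le _ _
  have h2 := Real.log_le_log one_pos h1
  rw [Real.log_one, Real.log_mul (norm_ne_zero_iff.2 (Units.ne_zero _))
    (norm_ne_zero_iff.2 (Units.ne_zero _))] at h2
  linarith [norm_cocycleProd_inv_le T A n x]

variable [MeasurableSpace R] [BorelSpace R] [SecondCountableTopology R] {mα : MeasurableSpace α}
  {μ : Measure α} [IsProbabilityMeasure μ] {T : α → α} {A : α → Rˣ}

omit [NormOneClass R] in
theorem measurable_cocycleProd (hT : Measurable T) (hA : Measurable fun x => (A x : R)) (n : ℕ) :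
    Measurable fun x => ((cocycleProd T A n x : Rˣ) : R) := by
  induction n with
  | zero => simp only [cocycleProd, Units.val_one]; exact measurable_const
  | succ n ih =>
    simp only [cocycleProd, Units.val_mul]
    exact (ih.comp hT).mul hA

omit [IsProbabilityMeasure μ] in
theorem cocycle_data (hT : MeasurePreserving T μ μ) (hA : Measurable fun x => (A x : R))
    (h1 : Integrable (fun x => log⁺ ‖(A x : R)‖) μ)
    (h2 : Integrable (fun x => log⁺ ‖(((A x)⁻¹ : Rˣ) : R)‖) μ) :
    (∀ n, Measurable fun x => log ‖((cocycleProd T A n x : Rˣ) : R)‖) ∧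
      (∀ n, Integrable (fun x => log ‖((cocycleProd T A n x : Rˣ) : R)‖) μ) ∧
      (∀ m n x, log ‖((cocycleProd T A (m + n) x : Rˣ) : R)‖ ≤
        log ‖((cocycleProd T A m x : Rˣ) : R)‖ + log ‖((cocycleProd T A n (T^[m] x) : Rˣ) : R)‖) ∧
      ∀ n : ℕ, -(∫ x, log⁺ ‖(((A x)⁻¹ : Rˣ) : R)‖ ∂μ) * n ≤
        ∫ x, log ‖((cocycleProd T A n x : Rˣ) : R)‖ ∂μ := by
  have hR : Nontrivial R := NormOneClass.nontrivial (G := R)
  have hmeas : ∀ n, Measurable fun x => log ‖((cocycleProd T A n x : Rˣ) : R)‖ := fun n =>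
    Real.measurable_log.comp (measurable_cocycleProd hT.measurable hA n).norm
  have hint : ∀ n, Integrable (fun x => log ‖((cocycleProd T A n x : Rˣ) : R)‖) μ := fun n => by
    refine ((integrable_birkhoffSum hT h1 n).add (integrable_birkhoffSum hT h2 n)).mono'
      (hmeas n).aestronglyMeasurable (.of_forall fun x => ?_)
    have a1 := norm_cocycleProd_le T A n x
    have a2 := neg_birkhoffSum_le T A n x
    have b1 : 0 ≤ birkhoffSum T (fun y => log⁺ ‖(A y : R)‖) n x :=
      sum_nonneg fun i _ => posLog_nonneg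
    have b2 : 0 ≤ birkhoffSum T (fun y => log⁺ ‖(((A y)⁻¹ : Rˣ) : R)‖) n x :=
      sum_nonneg fun i _ => posLog_nonneg
    rw [Real.norm_eq_abs, Pi.add_apply, abs_le]
    constructor <;> linarith
  refine ⟨hmeas, hint, fun m n x => ?_, fun n => ?_⟩
  · rw [cocycleProd_add, Units.val_mul, add_comm (log ‖((cocycleProd T A m x : Rˣ) : R)‖)]
    refine (Real.log_le_log (norm_pos_iff.2 ((cocycleProd T A n (T^[m] x) *
      cocycleProd T A m x).isUnit.ne_zero)) (norm_mul_le _ _)).trans_eq ?_
    exact Real.log_mul (norm_ne_zero_iff.2 (Units.ne_zero _))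
      (norm_ne_zero_iff.2 (Units.ne_zero _))
  · rw [neg_mul, mul_comm, ← integral_birkhoffSum hT h2, ← integral_neg]
    exact integral_mono (integrable_birkhoffSum hT h2 n).neg (hint n) (neg_birkhoffSum_le T A n)

end FA.Kingman
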