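import Fermat.Agent.Kingman.Steele
import Mathlib.Analysis.Subadditive
import Mathlib.Dynamics.BirkhoffSum.Basic

/-!
# The theorem of Kingman
-/

set_option autoImplicit false

noncomputable section

namespace FA.Kingman

open MeasureTheory Filter Topology MeasurableSpace Finset
open scoped ENNReal

variable {α : Type*} {mα : MeasurableSpace α} {μ : Measure α} [IsProbabilityMeasure μ] {T : α → α}

omit [IsProbabilityMeasure μ] in
theorem integral_comp_iterate (hT : MeasurePreserving T μ μ) {f : α → ℝ} (hf : Integrable f μ)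
    (i : ℕ) : ∫ x, f (T^[i] x) ∂μ = ∫ x, f x ∂μ := by
  have h := integral_map (hT.iterate i).aemeasurable (f := f)
    (by rw [(hT.iterate i).map_eq]; exact hf.aestronglyMeasurable)
  rw [(hT.iterate i).map_eq] at h
  exact h.symm

omit [IsProbabilityMeasure μ] in
theorem integrable_comp_iterate (hT : MeasurePreserving T μ μ) {f : α → ℝ} (hf : Integrable f μ)
    (i : ℕ) : Integrable (fun x => f (T^[i] x)) μ :=
  (hT.iterate i).integrable_comp_of_integrable hf

omit [IsProbabilityMeasure μ] in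
theorem integrable_birkhoffSum (hT : MeasurePreserving T μ μ) {f : α → ℝ} (hf : Integrable f μ)
    (n : ℕ) : Integrable (birkhoffSum T f n) μ :=
  integrable_finsetSum _ fun i _ => integrable_comp_iterate hT hf i

omit [IsProbabilityMeasure μ] in
theorem integral_birkhoffSum (hT : MeasurePreserving T μ μ) {f : α → ℝ} (hf : Integrable f μ)
    (n : ℕ) : ∫ x, birkhoffSum T f n x ∂μ = n * ∫ x, f x ∂μ := by
  simp only [birkhoffSum]
  rw [integral_finsetSum _ fun i _ => integrable_comp_iterate hT hf i,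
    sum_congr rfl fun i _ => integral_comp_iterate hT hf i, sum_const, card_range, nsmul_eq_mul]

theorem iterate_block_le {h : ℕ → α → ℝ} (h0 : ∀ n x, 0 ≤ h n x)
    (hsup : ∀ m n x, h m x + h n (T^[m] x) ≤ h (m + n) x) (k m : ℕ) (x : α) {φ : α → ℝ}
    (hφ : ∀ y, φ y ≤ h k y) : birkhoffSum (T^[k]) φ m x ≤ h (m * k) x := by
  induction m with
  | zero => simpa using h0 0 x
  | succ m ih =>
    rw [birkhoffSum_succ, Nat.succ_mul]
    refine le_trans (add_le_add ih ((hφ _).trans_eq ?_)) (hsup (m * k) k x)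
    rw [← Function.iterate_mul, mul_comm]

/-- **Kingman's theorem for nonnegative superadditive processes.** -/
theorem tendsto_superadditive (hT : MeasurePreserving T μ μ) {h : ℕ → α → ℝ}
    (hm : ∀ n, Measurable (h n)) (hi : ∀ n, Integrable (h n) μ) (h0 : ∀ n x, 0 ≤ h n x)
    (hsup : ∀ m n x, h m x + h n (T^[m] x) ≤ h (m + n) x) {C : ℝ}
    (hC : ∀ n : ℕ, ∫ x, h n x ∂μ ≤ C * n) :
    ∃ G : α → ℝ, Integrable G μ ∧ G ∘ T =ᵐ[μ] G ∧
      (∀ᵐ x ∂μ, Tendsto (fun n : ℕ => h n x / n) atTop (𝓝 (G x))) ∧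
      Tendsto (fun n : ℕ => (∫ x, h n x ∂μ) / n) atTop (𝓝 (∫ x, G x ∂μ)) ∧
      ∀ n : ℕ, 0 < n → (∫ x, h n x ∂μ) / n ≤ ∫ x, G x ∂μ := by
  set a : ℕ → ℝ := fun n => ∫ x, h n x ∂μ with ha
  have hsub : Subadditive fun n => -a n := fun m n => by
    have h1 : a m + a n ≤ a (m + n) := by
      rw [ha]
      simp only
      rw [← integral_comp_iterate hT (hi n) m,
        ← integral_add (hi m) (integrable_comp_iterate hT (hi n) m)]
      exact integral_mono ((hi m).add (integrable_comp_iterate hT (hi n) m)) (hi _) (hsup m n)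
    linarith
  have hC0 : 0 ≤ C := by
    have := hC 1
    rw [Nat.cast_one, mul_one] at this
    exact (integral_nonneg (h0 1)).trans this
  have hbdd : BddBelow (Set.range fun n : ℕ => -a n / n) := by
    refine ⟨-C, ?_⟩
    rintro _ ⟨n, rfl⟩
    rcases n.eq_zero_or_pos with rfl | hn
    · simp [hC0]
    rw [le_div_iff₀ (Nat.cast_pos.2 hn)]
    linarith [hC n]
  set L := -hsub.lim with hL
  have hlim : Tendsto (fun n : ℕ => a n / n) atTop (𝓝 L) := by
    simpa [neg_div] using (hsub.tendsto_lim hbdd).neg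
  set F := upperLim h with hF
  have hFm : Measurable F := measurable_upperLim hm
  have hae := tendsto_upperLim hT hm h0 hsup
  have hint : ∀ n : ℕ, ∫⁻ x, ENNReal.ofReal (h n x / n) ∂μ = ENNReal.ofReal (a n / n) := fun n => by
    rw [ha]
    simp only
    rw [← integral_div, ofReal_integral_eq_lintegral_ofReal ((hi n).div_const _)
      (.of_forall fun x => div_nonneg (h0 n x) (Nat.cast_nonneg n))]
  have hFL : ∫⁻ x, F x ∂μ ≤ ENNReal.ofReal L := by
    calc ∫⁻ x, F x ∂μ = ∫⁻ x, liminf (fun n : ℕ => ENNReal.ofReal (h n x / n)) atTop ∂μ :=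
          lintegral_congr_ae (hae.mono fun x hx => hx.liminf_eq.symm)
      _ ≤ liminf (fun n : ℕ => ∫⁻ x, ENNReal.ofReal (h n x / n) ∂μ) atTop :=
          lintegral_liminf_le fun n => ((hm n).div_const _).ennreal_ofReal
      _ = ENNReal.ofReal L := by
          simp only [hint]
          exact (ENNReal.tendsto_ofReal hlim).liminf_eq
  have hne : ∫⁻ x, F x ∂μ ≠ ⊤ := (hFL.trans_lt ENNReal.ofReal_lt_top).ne
  have hfin : ∀ᵐ x ∂μ, F x < ⊤ := ae_lt_top hFm hne
  set G := fun x => (F x).toReal with hG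
  have hGi : Integrable G μ := integrable_toReal_of_lintegral_ne_top hFm.aemeasurable hne
  have hGlim : ∀ᵐ x ∂μ, Tendsto (fun n : ℕ => h n x / n) atTop (𝓝 (G x)) := by
    filter_upwards [hae, hfin] with x hx hxf
    refine ((ENNReal.tendsto_toReal hxf.ne).comp hx).congr fun n => ?_
    exact ENNReal.toReal_ofReal (div_nonneg (h0 n x) (Nat.cast_nonneg n))
  have hupper : ∫ x, G x ∂μ ≤ L := by
    rw [hG, integral_toReal hFm.aemeasurable hfin]
    exact ENNReal.toReal_le_of_le_ofReal (ge_of_tendsto' hlim fun n =>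
      div_nonneg (integral_nonneg (h0 n)) (Nat.cast_nonneg n)) hFL
  have hlower : ∀ k : ℕ, 0 < k → a k / k ≤ ∫ x, G x ∂μ := fun k hk => by
    have hk' : (0 : ℝ) < k := Nat.cast_pos.2 hk
    have hstep : ∀ M : ℕ, ∫ x, min (h k x) M ∂μ ≤ k * ∫ x, G x ∂μ := fun M => by
      have hφi : Integrable (fun x => min (h k x) (M : ℝ)) μ :=
        (hi k).inf (integrable_const (M : ℝ))
      rw [← integral_condExp (invariants_le (T^[k])) (f := fun x => min (h k x) (M : ℝ)),
        ← integral_const_mul]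
      refine integral_mono_ae integrable_condExp (hGi.const_mul _) ?_
      filter_upwards [hGlim, FA.PointwiseErgodic.tendsto_average (hT.iterate k) hφi] with x hx hb
      have hsubseq : Tendsto (fun m : ℕ => h (m * k) x / m) atTop (𝓝 (k * G x)) := by
        refine ((hx.comp (tendsto_id.atTop_mul_const' hk)).const_mul (k : ℝ)).congr' ?_
        filter_upwards [eventually_gt_atTop 0] with m hm'
        have : (m : ℝ) ≠ 0 := (Nat.cast_pos.2 hm').ne'
        simp only [Function.comp_apply, id, Nat.cast_mul]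
        field_simp
      refine le_of_tendsto_of_tendsto hb hsubseq ?_
      filter_upwards [eventually_gt_atTop 0] with m hm'
      rw [birkhoffAverage, smul_eq_mul, inv_mul_eq_div]
      exact div_le_div_of_nonneg_right
        (iterate_block_le h0 hsup k m x fun y => min_le_left _ _) (Nat.cast_nonneg m)
    rw [div_le_iff₀ hk', mul_comm]
    refine le_of_tendsto' (tendsto_integral_of_dominated_convergence (h k)
      (fun M => ((hm k).min measurable_const).aestronglyMeasurable) (hi k) (fun M => ?_) ?_) hstep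
    · refine .of_forall fun x => ?_
      rw [Real.norm_eq_abs, abs_of_nonneg (le_min (h0 k x) (Nat.cast_nonneg M))]
      exact min_le_left _ _
    · refine .of_forall fun x => tendsto_const_nhds.congr' ?_
      filter_upwards [eventually_ge_atTop ⌈h k x⌉₊] with M hM
      exact (min_eq_left ((Nat.le_ceil _).trans (Nat.cast_le.2 hM))).symm
  have hGL : ∫ x, G x ∂μ = L :=
    le_antisymm hupper (le_of_tendsto hlim ((eventually_gt_atTop 0).mono hlower))
  refine ⟨G, hGi, ?_, hGlim, hGL ▸ hlim, hlower⟩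
  filter_upwards [upperLim_comp_ae hT hm h0 hsup] with x hx
  simp only [hG, hF, Function.comp_apply, hx]

/-- **Kingman's subadditive ergodic theorem.** -/
theorem tendsto_subadditive (hT : MeasurePreserving T μ μ) {g : ℕ → α → ℝ}
    (hm : ∀ n, Measurable (g n)) (hi : ∀ n, Integrable (g n) μ)
    (hsub : ∀ m n x, g (m + n) x ≤ g m x + g n (T^[m] x)) {C : ℝ}
    (hC : ∀ n : ℕ, -C * n ≤ ∫ x, g n x ∂μ) :
    ∃ G : α → ℝ, Integrable G μ ∧ G ∘ T =ᵐ[μ] G ∧
      (∀ᵐ x ∂μ, Tendsto (fun n : ℕ => g n x / n) atTop (𝓝 (G x))) ∧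
      Tendsto (fun n : ℕ => (∫ x, g n x ∂μ) / n) atTop (𝓝 (∫ x, G x ∂μ)) ∧
      ∀ n : ℕ, 0 < n → ∫ x, G x ∂μ ≤ (∫ x, g n x ∂μ) / n := by
  set S := fun n => birkhoffSum T (g 1) n with hS
  have hSm : ∀ n, Measurable (S n) := fun n =>
    Finset.measurable_sum _ fun i _ => (hm 1).comp (hT.measurable.iterate i)
  set h : ℕ → α → ℝ := fun n x => if n = 0 then 0 else S n x - g n x with hh
  have hle : ∀ n x, 0 < n → g n x ≤ S n x := by
    intro n
    induction n with
    | zero => exact fun x hn => absurd hn (lt_irrefl 0)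
    | succ n ih =>
      intro x _
      rcases n.eq_zero_or_pos with rfl | hn
      · rw [hS]; simp
      refine (add_comm 1 n ▸ hsub 1 n x).trans ?_
      rw [hS]
      simp only
      rw [birkhoffSum_succ', Function.iterate_one]
      exact add_le_add le_rfl (ih (T x) hn)
  have hpos : ∀ n, 0 < n → h n = fun x => S n x - g n x := fun n hn => by
    rw [hh]; simp only [if_neg hn.ne']
  have h0 : ∀ n x, 0 ≤ h n x := fun n x => by
    rcases n.eq_zero_or_pos with rfl | hn
    · simp [hh]
    · rw [hpos n hn]; exact sub_nonneg.2 (hle n x hn)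
  have hsup : ∀ m n x, h m x + h n (T^[m] x) ≤ h (m + n) x := fun m n x => by
    rcases m.eq_zero_or_pos with rfl | hm'
    · simp [hh]
    rcases n.eq_zero_or_pos with rfl | hn
    · simp [hh]
    rw [hpos m hm', hpos n hn, hpos (m + n) (by omega)]
    simp only [hS]
    rw [birkhoffSum_add]
    linarith [hsub m n x]
  have hmeas : ∀ n, Measurable (h n) := fun n => by
    rcases n.eq_zero_or_pos with rfl | hn
    · simp only [hh, if_true]; exact measurable_const
    · rw [hpos n hn]; exact (hSm n).sub (hm n)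
  have hint : ∀ n, Integrable (h n) μ := fun n => by
    rcases n.eq_zero_or_pos with rfl | hn
    · simp only [hh, if_true]; exact integrable_zero _ _ _
    · rw [hpos n hn]; exact (integrable_birkhoffSum hT (hi 1) n).sub (hi n)
  have hval : ∀ n, 0 < n → ∫ x, h n x ∂μ = n * (∫ x, g 1 x ∂μ) - ∫ x, g n x ∂μ := fun n hn => by
    rw [hpos n hn, integral_sub (integrable_birkhoffSum hT (hi 1) n) (hi n),
      integral_birkhoffSum hT (hi 1)]
  obtain ⟨G, hGi, hGinv, hGlim, hGint, hGle⟩ := tendsto_superadditive hT hmeas hint h0 hsup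
    (C := (∫ x, g 1 x ∂μ) + C) fun n => by
      rcases n.eq_zero_or_pos with rfl | hn
      · simp [hh]
      · rw [hval n hn]; linarith [hC n]
  set E := μ[g 1 | invariants T] with hE
  have hEint : ∫ x, E x ∂μ = ∫ x, g 1 x ∂μ := integral_condExp (invariants_le T)
  have hGg : ∫ x, (E x - G x) ∂μ = (∫ x, g 1 x ∂μ) - ∫ x, G x ∂μ := by
    rw [integral_sub integrable_condExp hGi, hEint]
  refine ⟨fun x => E x - G x, integrable_condExp.sub hGi, ?_, ?_, ?_, ?_⟩
  · filter_upwards [hGinv] with x hx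
    have hEx : E (T x) = E x := congrFun (FA.PointwiseErgodic.condExp_comp_eq T (g 1)) x
    simp only [Function.comp_apply] at hx ⊢
    rw [hEx, hx]
  · filter_upwards [hGlim, FA.PointwiseErgodic.tendsto_average hT (hi 1)] with x hx hb
    refine (hb.sub hx).congr' ?_
    filter_upwards [eventually_gt_atTop 0] with n hn
    rw [hpos n hn, birkhoffAverage, smul_eq_mul, inv_mul_eq_div, ← sub_div]
    simp only [hS]
    rw [sub_sub_cancel]
  · rw [hGg]
    refine (hGint.const_sub (∫ x, g 1 x ∂μ)).congr' ?_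
    filter_upwards [eventually_gt_atTop 0] with n hn
    rw [hval n hn, sub_div, mul_div_cancel_left₀ _ (Nat.cast_pos.2 hn).ne', sub_sub_cancel]
  · intro n hn
    have h1 := hGle n hn
    rw [hval n hn, sub_div, mul_div_cancel_left₀ _ (Nat.cast_pos.2 hn).ne'] at h1
    rw [hGg]
    linarith

/-- **The ergodic case.** -/
theorem tendsto_subadditive_ergodic (hT : Ergodic T μ) {g : ℕ → α → ℝ}
    (hm : ∀ n, Measurable (g n)) (hi : ∀ n, Integrable (g n) μ)
    (hsub : ∀ m n x, g (m + n) x ≤ g m x + g n (T^[m] x)) {C : ℝ}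
    (hC : ∀ n : ℕ, -C * n ≤ ∫ x, g n x ∂μ) :
    ∃ γ : ℝ, (∀ᵐ x ∂μ, Tendsto (fun n : ℕ => g n x / n) atTop (𝓝 γ)) ∧
      Tendsto (fun n : ℕ => (∫ x, g n x ∂μ) / n) atTop (𝓝 γ) ∧
      ∀ n : ℕ, 0 < n → γ ≤ (∫ x, g n x ∂μ) / n := by
  obtain ⟨G, hGi, hGinv, hlim, hint, hle⟩ :=
    tendsto_subadditive hT.toMeasurePreserving hm hi hsub hC
  obtain ⟨c, hc⟩ := hT.ae_eq_const_of_ae_eq_comp_ae hGi.aestronglyMeasurable hGinv
  have hcv : ∫ x, G x ∂μ = c := by rw [integral_congr_ae hc]; simp
  rw [hcv] at hint hle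
  refine ⟨c, ?_, hint, hle⟩
  filter_upwards [hlim, hc] with x hx hx'
  rwa [hx'] at hx

end FA.Kingman
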