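import Fermat.Agent.PointwiseErgodic.Birkhoff

/-!
# The limit for nonnegative superadditive processes

After Steele: where `h ℓ ≥ ℓ c` is possible with some `ℓ ≤ N` a step of length `ℓ` is taken,
elsewhere a step of length one.
-/

set_option autoImplicit false

noncomputable section

namespace FA.Kingman

open MeasureTheory Filter Topology MeasurableSpace Finset
open scoped ENNReal

variable {α : Type*} {mα : MeasurableSpace α} {μ : Measure α} {T : α → α} {h : ℕ → α → ℝ}

/-- The upper limit of `h n / n`. -/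
def upperLim (h : ℕ → α → ℝ) (x : α) : ℝ≥0∞ :=
  limsup (fun n : ℕ => ENNReal.ofReal (h n x / n)) atTop

/-- The upper limit cut at `M`. -/
def cutLim (h : ℕ → α → ℝ) (M : ℕ) (x : α) : ℝ := (min (upperLim h x) M).toReal

/-- Where no step of length at most `N` gains `c` per unit of time. -/
def poorSet (h : ℕ → α → ℝ) (M : ℕ) (ε : ℝ) (N : ℕ) : Set α :=
  {y | ∀ ℓ ∈ Icc 1 N, h ℓ y < ℓ * (cutLim h M y - ε)}

theorem measurable_upperLim (hm : ∀ n, Measurable (h n)) : Measurable (upperLim h) :=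
  Measurable.limsup fun n => ((hm n).div_const _).ennreal_ofReal

theorem measurable_cutLim (hm : ∀ n, Measurable (h n)) (M : ℕ) : Measurable (cutLim h M) :=
  ((measurable_upperLim hm).min measurable_const).ennreal_toReal

theorem measurableSet_poorSet (hm : ∀ n, Measurable (h n)) (M : ℕ) (ε : ℝ) (N : ℕ) :
    MeasurableSet (poorSet h M ε N) := by
  simp only [poorSet, Set.ofPred_forall]
  exact Finset.measurableSet_biInter _ fun ℓ _ => measurableSet_lt (hm ℓ)
    (((measurable_cutLim hm M).sub_const ε).const_mul _)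

theorem exists_good_step (h0 : ∀ n x, 0 ≤ h n x) (M : ℕ) {ε : ℝ} (hε : 0 < ε) (y : α) :
    ∃ N, y ∉ poorSet h M ε N := by
  by_cases hc : cutLim h M y - ε ≤ 0
  · refine ⟨1, fun hy => ?_⟩
    have := hy 1 (mem_Icc.2 ⟨le_rfl, le_rfl⟩)
    push_cast at this
    linarith [h0 1 y]
  have hne : min (upperLim h y) (M : ℝ≥0∞) ≠ ⊤ :=
    ne_top_of_le_ne_top (ENNReal.natCast_ne_top M) (min_le_right _ _)
  have hlt : ENNReal.ofReal (cutLim h M y - ε) < upperLim h y :=
    ((ENNReal.ofReal_lt_iff_lt_toReal (le_of_not_ge hc) hne).2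
      (sub_lt_self _ hε)).trans_le (min_le_left _ _)
  obtain ⟨n, hn, hn0⟩ :=
    ((frequently_lt_of_lt_limsup (by isBoundedDefault) hlt).and_eventually
      (eventually_gt_atTop 0)).exists
  refine ⟨n, fun hy => (hy n (mem_Icc.2 ⟨hn0, le_rfl⟩)).not_ge ?_⟩
  have h1 := (ENNReal.ofReal_lt_ofReal_iff'.1 hn).1
  rw [lt_div_iff₀ (Nat.cast_pos.2 hn0)] at h1
  linarith

/-- The number of times below `n` spent in `B`. -/
def visits (B : Set α) (T : α → α) (i n : ℕ) (x : α) : ℝ :=
  ∑ j ∈ range n, B.indicator (fun _ => (1 : ℝ)) (T^[i + j] x)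

theorem le_of_steps (h0 : ∀ n x, 0 ≤ h n x)
    (hsup : ∀ m n x, h m x + h n (T^[m] x) ≤ h (m + n) x) {c : ℝ} (hc : 0 ≤ c) {N : ℕ} {B : Set α}
    (x : α) (hstep : ∀ i, T^[i] x ∉ B → ∃ ℓ ∈ Icc 1 N, (ℓ : ℝ) * c ≤ h ℓ (T^[i] x)) :
    ∀ n i : ℕ, c * ((n : ℝ) - N - visits B T i n x) ≤ h n (T^[i] x) := by
  intro n
  induction n using Nat.strong_induction_on with
  | _ n ih =>
    intro i
    have hv : ∀ i n, 0 ≤ visits B T i n x := fun i n =>
      sum_nonneg fun j _ => Set.indicator_nonneg (fun _ _ => zero_le_one) _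
    rcases le_or_gt n N with hn | hn
    · refine le_trans (mul_nonpos_of_nonneg_of_nonpos hc ?_) (h0 n _)
      linarith [hv i n, (Nat.cast_le (α := ℝ)).2 hn]
    by_cases hB : T^[i] x ∈ B
    · obtain ⟨k, rfl⟩ : ∃ k, n = 1 + k := ⟨n - 1, by omega⟩
      have h1 := ih k (by omega) (i + 1)
      have h2 := hsup 1 k (T^[i] x)
      rw [← Function.iterate_add_apply, add_comm 1 i] at h2
      have e : visits B T i (1 + k) x = 1 + visits B T (i + 1) k x := by
        rw [visits, visits, add_comm 1 k, sum_range_succ']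
        rw [add_zero, Set.indicator_of_mem hB, add_comm]
        simp only [add_assoc, add_comm 1]
      rw [e]
      push_cast
      linarith [h0 1 (T^[i] x)]
    · obtain ⟨ℓ, hℓ, hgain⟩ := hstep i hB
      rw [mem_Icc] at hℓ
      obtain ⟨k, rfl⟩ : ∃ k, n = ℓ + k := ⟨n - ℓ, by omega⟩
      have h1 := ih k (by omega) (i + ℓ)
      have h2 := hsup ℓ k (T^[i] x)
      rw [← Function.iterate_add_apply, add_comm ℓ i] at h2
      have e : visits B T (i + ℓ) k x ≤ visits B T i (ℓ + k) x := by
        rw [visits, visits, sum_range_add]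
        simp only [add_assoc]
        exact le_add_of_nonneg_left
          (sum_nonneg fun j _ => Set.indicator_nonneg (fun _ _ => zero_le_one) _)
      have h3 := mul_le_mul_of_nonneg_left e hc
      push_cast
      linarith

variable [IsProbabilityMeasure μ] (hT : MeasurePreserving T μ μ) (hm : ∀ n, Measurable (h n))
  (h0 : ∀ n x, 0 ≤ h n x) (hsup : ∀ m n x, h m x + h n (T^[m] x) ≤ h (m + n) x)
include hT hm h0 hsup

omit [IsProbabilityMeasure μ] hT hm in
theorem upperLim_comp_le (x : α) : upperLim h (T x) ≤ upperLim h x := by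
  refine le_of_forall_lt_imp_le_of_dense fun b hb => ?_
  obtain ⟨c, hbc, hc⟩ := exists_between hb
  have hf : ∃ᶠ n : ℕ in atTop, b < ENNReal.ofReal (h n x / n) := by
    refine (tendsto_add_atTop_nat 1).frequently ?_
    rcases eq_or_ne b ⊤ with rfl | hb'
    · exact absurd hbc not_top_lt
    have hbr : b.toReal < c.toReal ∨ c = ⊤ := by
      rcases eq_or_ne c ⊤ with h | h
      · exact Or.inr h
      · exact Or.inl ((ENNReal.toReal_lt_toReal hb' h).2 hbc)
    have hct : c ≠ ⊤ := (hc.trans_le le_top).ne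
    have hbr' := hbr.resolve_right hct
    have hlim : Tendsto (fun n : ℕ => (n : ℝ) / (n + 1) * c.toReal) atTop (𝓝 c.toReal) := by
      simpa using (tendsto_natCast_div_add_atTop (1 : ℝ)).mul_const c.toReal
    refine ((frequently_lt_of_lt_limsup (by isBoundedDefault) hc).and_eventually
      ((hlim.eventually_const_lt hbr').and (eventually_gt_atTop 0))).mono ?_
    rintro n ⟨hn, hn1, hn0⟩
    have h1 : c.toReal < h n (T x) / n := ENNReal.lt_ofReal_iff_toReal_lt hct |>.1 hn
    have h2 := hsup 1 n x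
    rw [Function.iterate_one, add_comm 1 n] at h2
    rw [ENNReal.lt_ofReal_iff_toReal_lt hb']
    refine hn1.trans_le ?_
    have hn' : (0 : ℝ) < n := Nat.cast_pos.2 hn0
    rw [lt_div_iff₀ hn'] at h1
    push_cast
    rw [div_mul_eq_mul_div, div_le_div_iff_of_pos_right (by positivity)]
    linarith [h0 1 x]
  exact le_limsup_of_frequently_le (hf.mono fun n hn => hn.le)

theorem upperLim_comp_ae : ∀ᵐ x ∂μ, upperLim h (T x) = upperLim h x := by
  have hF := measurable_upperLim hm
  have key : ∀ q : ℚ, ∀ᵐ x ∂μ, ENNReal.ofReal q < upperLim h x →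
      ENNReal.ofReal q < upperLim h (T x) := fun q => by
    set S := {x | ENNReal.ofReal (q : ℝ) < upperLim h x} with hS
    have hSm : MeasurableSet S := measurableSet_lt measurable_const hF
    have hsub : T ⁻¹' S ⊆ S := fun x hx => lt_of_lt_of_le hx (upperLim_comp_le h0 hsup x)
    have he : (T ⁻¹' S : Set α) =ᵐ[μ] S := ae_eq_of_subset_of_measure_ge hsub
      (hT.measure_preimage hSm.nullMeasurableSet).ge
      (hT.measurable hSm).nullMeasurableSet (measure_ne_top μ S)
    filter_upwards [he] with x hx hxS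
    exact Eq.mpr hx hxS
  filter_upwards [ae_all_iff.2 key] with x hx
  refine le_antisymm (upperLim_comp_le h0 hsup x) (le_of_forall_lt_imp_le_of_dense ?_)
  intro b hb
  by_contra hlt
  rw [not_le] at hlt
  obtain ⟨q, -, hq1, hq2⟩ := ENNReal.lt_iff_exists_rat_btwn.1 (hlt.trans hb)
  exact lt_irrefl _ ((hx q hq2).trans_le' (le_of_lt hq1))

theorem cutLim_iterate_ae (M : ℕ) :
    ∀ᵐ x ∂μ, ∀ i, cutLim h M (T^[i] x) = cutLim h M x := by
  refine ae_all_iff.2 fun i => ?_
  induction i with
  | zero => exact .of_forall fun x => rfl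
  | succ i ih =>
    filter_upwards [ih, (hT.iterate i).quasiMeasurePreserving.ae (upperLim_comp_ae hT hm h0 hsup)]
      with x hx hx'
    rw [Function.iterate_succ_apply', cutLim, hx']
    exact hx

theorem eventually_ge_cutLim (M : ℕ) {ε : ℝ} (hε : 0 < ε) :
    ∀ᵐ x ∂μ, ∀ η > 0, η ≤ 1 → ∀ᶠ n : ℕ in atTop, (cutLim h M x - ε) * (1 - η) - η ≤ h n x / n := by
  set E := fun N => μ[(poorSet h M ε N).indicator (fun _ => (1 : ℝ)) | invariants T] with hE
  have hB := fun N => measurableSet_poorSet hm M ε N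
  have hInt : ∀ N, Integrable ((poorSet h M ε N).indicator fun _ => (1 : ℝ)) μ := fun N =>
    (integrable_const _).indicator (hB N)
  have hmeas : Tendsto (fun N => μ.real (poorSet h M ε N)) atTop (𝓝 0) := by
    have hempty : ⋂ N, poorSet h M ε N = ∅ := Set.eq_empty_of_forall_notMem fun y hy => by
      obtain ⟨N, hN⟩ := exists_good_step h0 M hε y
      exact hN (Set.mem_iInter.1 hy N)
    have ht := tendsto_measure_iInter_atTop (μ := μ) (fun N => (hB N).nullMeasurableSet)
      (fun N N' hN y hy ℓ hℓ => hy ℓ (mem_Icc.2 ⟨(mem_Icc.1 hℓ).1, (mem_Icc.1 hℓ).2.trans hN⟩))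
      ⟨0, measure_ne_top μ _⟩
    rw [hempty, measure_empty] at ht
    exact (ENNReal.tendsto_toReal ENNReal.zero_ne_top).comp ht
  have hEsmall : ∀ᵐ x ∂μ, ∀ k : ℕ, ∃ N, E N x < 1 / ((k : ℝ) + 1) := ae_all_iff.2 fun k => by
    rw [ae_iff]
    push Not
    set S := {x | ∀ N, 1 / ((k : ℝ) + 1) ≤ E N x} with hS
    have hle : ∀ N, 1 / ((k : ℝ) + 1) * μ.real S ≤ μ.real (poorSet h M ε N) := fun N => by
      have h1 := mul_meas_ge_le_integral_of_nonneg (μ := μ) (f := E N)
        (condExp_nonneg (.of_forall fun x => Set.indicator_nonneg (fun _ _ => zero_le_one) x))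
        integrable_condExp (1 / ((k : ℝ) + 1))
      rw [integral_condExp (invariants_le T), integral_indicator_const (1 : ℝ) (hB N),
        smul_eq_mul, mul_one] at h1
      refine le_trans (mul_le_mul_of_nonneg_left ?_ (by positivity)) h1
      exact measureReal_mono (fun x hx => hx N) (measure_ne_top _ _)
    have h2 := ge_of_tendsto' hmeas hle
    have h3 : μ.real S = 0 := le_antisymm
      (nonpos_of_mul_nonpos_right h2 (by positivity)) measureReal_nonneg
    exact (measureReal_eq_zero_iff (measure_ne_top _ _)).1 h3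
  filter_upwards [cutLim_iterate_ae hT hm h0 hsup M, hEsmall,
    ae_all_iff.2 fun N => FA.PointwiseErgodic.tendsto_average hT (hInt N)]
      with x hx hsmall hbirk η hη hη1
  set c := cutLim h M x - ε with hc
  rcases le_or_gt c 0 with hc0 | hc0
  · refine .of_forall fun n => le_trans ?_ (div_nonneg (h0 n x) (Nat.cast_nonneg n))
    linarith [mul_nonpos_of_nonpos_of_nonneg hc0 (sub_nonneg.2 hη1)]
  obtain ⟨k, hk⟩ := exists_nat_one_div_lt hη
  obtain ⟨N, hN⟩ := hsmall k
  have hstep : ∀ i, T^[i] x ∉ poorSet h M ε N →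
      ∃ ℓ ∈ Icc 1 N, (ℓ : ℝ) * c ≤ h ℓ (T^[i] x) := fun i hi => by
    simp only [poorSet, Set.mem_ofPred_eq, hx i] at hi
    push Not at hi
    exact hi
  have hlim : Tendsto (fun n : ℕ => c * (1 - (N : ℝ) / n -
      birkhoffAverage ℝ T ((poorSet h M ε N).indicator fun _ => (1 : ℝ)) n x)) atTop
      (𝓝 (c * (1 - 0 - E N x))) :=
    ((tendsto_const_nhds.sub (tendsto_const_div_atTop_nhds_zero_nat (N : ℝ))).sub
      (hbirk N)).const_mul c
  have hgt : c * (1 - η) - η < c * (1 - 0 - E N x) := by nlinarith [hN.trans hk]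
  filter_upwards [hlim.eventually_const_lt hgt, eventually_gt_atTop 0] with n hn hn0
  refine hn.le.trans ?_
  have hn' : (0 : ℝ) < n := Nat.cast_pos.2 hn0
  have h5 := le_of_steps h0 hsup hc0.le x hstep n 0
  have e : visits (poorSet h M ε N) T 0 n x =
      n * birkhoffAverage ℝ T ((poorSet h M ε N).indicator fun _ => (1 : ℝ)) n x := by
    rw [birkhoffAverage, smul_eq_mul, mul_inv_cancel_left₀ hn'.ne', birkhoffSum, visits]
    simp only [zero_add]
  rw [e, Function.iterate_zero_apply] at h5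
  rw [le_div_iff₀ hn']
  refine le_trans (le_of_eq ?_) h5
  field_simp

/-- **The limit exists, possibly infinite.** -/
theorem tendsto_upperLim :
    ∀ᵐ x ∂μ, Tendsto (fun n : ℕ => ENNReal.ofReal (h n x / n)) atTop (𝓝 (upperLim h x)) := by
  filter_upwards [ae_all_iff.2 fun M : ℕ => ae_all_iff.2 fun k : ℕ =>
    eventually_ge_cutLim hT hm h0 hsup M (ε := 1 / ((k : ℝ) + 1)) (by positivity)] with x hx
  refine tendsto_of_le_liminf_of_limsup_le ?_ le_rfl
  refine le_of_forall_lt_imp_le_of_dense fun b hb => ?_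
  have hbt : b ≠ ⊤ := (hb.trans_le le_top).ne
  obtain ⟨M, hM⟩ := exists_nat_gt b.toReal
  have hbM : b.toReal < cutLim h M x := by
    rw [cutLim]
    refine (ENNReal.lt_ofReal_iff_toReal_lt hbt).1 ?_
    rw [ENNReal.ofReal_toReal (ne_top_of_le_ne_top (ENNReal.natCast_ne_top M) (min_le_right _ _))]
    refine lt_min hb ?_
    rw [← ENNReal.ofReal_natCast, ENNReal.lt_ofReal_iff_toReal_lt hbt]
    exact hM
  set d := cutLim h M x - b.toReal with hd
  have hd0 : 0 < d := sub_pos.2 hbM
  obtain ⟨k, hk⟩ := exists_nat_one_div_lt (show 0 < d / 3 by positivity)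
  set η := min 1 (d / (3 * (cutLim h M x + 1))) with hη
  have hc0 : 0 ≤ cutLim h M x := ENNReal.toReal_nonneg
  have hη0 : 0 < η := lt_min one_pos (by positivity)
  have hη2 : η * (cutLim h M x + 1) ≤ d / 3 := by
    refine (mul_le_mul_of_nonneg_right (min_le_right _ _) (by linarith)).trans_eq ?_
    field_simp
  refine le_liminf_of_le (by isBoundedDefault) ?_
  filter_upwards [hx M k η hη0 (min_le_left _ _)] with n hn
  rw [← ENNReal.ofReal_toReal hbt]
  refine ENNReal.ofReal_le_ofReal (le_trans ?_ hn)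
  have : 0 ≤ 1 / ((k : ℝ) + 1) * η := by positivity
  nlinarith

end FA.Kingman
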